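/-
S48 (Deligne-Serre), block BB, sub-block TOP (architect helper89).  THE CONTRACT between the
geometric blocks (E, T, M, NV, KL : `KummerPackage1`), the block H (`HBlock`) and the final algebra.
Definitions only.

* `homPE H A`      : homomorphisms `H → A` killing the elements of `H` which are conjugate in
                     `SL(2,ℤ)` to a power of `S`, `S T` or `T` (same shape as `S16.Lift.mem_homPE`);
* `NatOp Γ`        : an endomorphism of the functor `A ↦ Hom(Γ, A)` (e.g. `IsHeckeFamily.heckeHom`);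
* `KummerPackage1` : what E + T + M + NV + KL deliver (Kummer model of `J₁(M)[n]`);
* `HBlock`         : what H delivers (operators on `Hom(H, -)` and on `S₂(Γ₁(M))`, period map).

The operators `TH p`, `DH p` on `Hom(±Γ₁(M), -)` are PARAMETERS of both structures, so nobody has
to wait for anybody: the final theorem is
`∀ M ℓ, ∃ TH DH, Nonempty (KummerPackage1 M ℓ TH DH) ∧ Nonempty (HBlock M TH DH)` implies
`ResidualWeightTwo5`.
-/
import Fermat.Agent.S48.Nodes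
import Fermat.Agent.S48.BB.Base
import Fermat.Agent.Lib.HeckeHom.Abstract

set_option autoImplicit false

namespace Fermat.Agent.S48.BB.Top

open CongruenceSubgroup ModularGroup
open scoped MatrixGroups ModularForm

/-- The homomorphisms `Γ → A` which kill the subset `X`. -/
def homK {Γ : Type*} [Group Γ] (X : Set Γ) (A : Type*) [AddCommGroup A] :
    AddSubgroup (Additive Γ →+ A) where
  carrier := {χ | ∀ γ ∈ X, χ (Additive.ofMul γ) = 0}
  zero_mem' := fun _ _ => rfl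
  add_mem' := fun {a b} ha hb γ hγ => by
    rw [AddMonoidHom.add_apply, ha γ hγ, hb γ hγ, add_zero]
  neg_mem' := fun {a} ha γ hγ => by
    rw [AddMonoidHom.neg_apply, ha γ hγ, neg_zero]

theorem mem_homK {Γ : Type*} [Group Γ] {X : Set Γ} {A : Type*} [AddCommGroup A]
    {χ : Additive Γ →+ A} : χ ∈ homK X A ↔ ∀ γ ∈ X, χ (Additive.ofMul γ) = 0 := Iff.rfl

/-- The elements of `H` which are conjugate in `SL(2,ℤ)` to a power of `S`, `S T` or `T`. -/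
def peSet (H : Subgroup SL(2, ℤ)) : Set H :=
  {γ | ∃ σ ∈ ({S, S * T, T} : Set SL(2, ℤ)), ∃ (k : ℕ) (g : SL(2, ℤ)),
    (γ : SL(2, ℤ)) = g⁻¹ * σ ^ k * g}

/-- The homomorphisms `H → A` which kill the parabolic and the elliptic elements. -/
def homPE (H : Subgroup SL(2, ℤ)) (A : Type*) [AddCommGroup A] : AddSubgroup (Additive H →+ A) :=
  homK (peSet H) A

theorem mem_homPE {H : Subgroup SL(2, ℤ)} {A : Type*} [AddCommGroup A] {χ : Additive H →+ A} :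
    χ ∈ homPE H A ↔ ∀ σ ∈ ({S, S * T, T} : Set SL(2, ℤ)), ∀ (k : ℕ) (g : SL(2, ℤ))
      (h : g⁻¹ * σ ^ k * g ∈ H), χ (Additive.ofMul ⟨_, h⟩) = 0 := by
  constructor
  · intro hχ σ hσ k g h
    exact hχ _ ⟨σ, hσ, k, g, rfl⟩
  · rintro hχ γ ⟨σ, hσ, k, g, hγ⟩
    have h : g⁻¹ * σ ^ k * g ∈ H := hγ ▸ γ.2
    have hγ' : γ = ⟨_, h⟩ := Subtype.ext hγ
    rw [hγ']
    exact hχ σ hσ k g h

/-- An endomorphism of the functor `A ↦ Hom(Γ, A)`. -/
structure NatOp (Γ : Type) [Group Γ] : Type 1 where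
  /-- the operator on `Hom(Γ, A)` -/
  op : ∀ (A : Type) [AddCommGroup A], (Additive Γ →+ A) →+ (Additive Γ →+ A)
  /-- naturality in `A` -/
  nat : ∀ {A B : Type} [AddCommGroup A] [AddCommGroup B] (g : A →+ B) (ψ : Additive Γ →+ A),
    op B (g.comp ψ) = g.comp (op A ψ)

/-- The operator attached to a Hecke family. -/
noncomputable def NatOp.ofFamily {Γ G ι : Type} [Group Γ] [Group G] [Fintype ι] {φ : Γ →* G}
    {α : ι → G} (h : Fermat.Agent.Lib.HeckeHom.IsHeckeFamily φ α) : NatOp Γ where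
  op := fun _ _ => h.heckeHom
  nat := fun g ψ => h.heckeHom_comp g ψ

/-- A family of natural operators indexed by the primes not dividing `M`. -/
abbrev OpFam (M : ℕ) : Type 1 := ∀ p : ℕ, p.Prime → ¬ p ∣ M → NatOp ↥(H1 M 1)

/-- `f` has nebentypus `χ`. -/
def IsNeb {M : ℕ} (χ : DirichletCharacter ℂ M) (f : CuspForm (Gamma1 M) 2) : Prop :=
  ∀ γ : SL(2, ℤ), γ ∈ Gamma0 M →
    (f : UpperHalfPlane → ℂ) ∣[(2 : ℤ)] γ = χ ((γ 1 1 : ℤ) : ZMod M) • (f : UpperHalfPlane → ℂ)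

/-- **What the blocks E, T, M, NV, KL deliver** at level `±Γ₁(M)`, exponent `n`:
the Kummer group `W = {u ∈ F₁(M)^× : n ∣ div u} / n`-th powers, written additively. -/
structure KummerPackage1 (M n : ℕ) (TH DH : OpFam M) : Type 1 where
  W : Type
  [instAddCommGroup : AddCommGroup W]
  /-- the Galois action (on the coefficients of `q`-expansions) -/
  ρ : GQ → W →+ W
  ρ_one : ∀ w, ρ 1 w = w
  ρ_mul : ∀ σ τ w, ρ (σ * τ) w = ρ σ (ρ τ w)
  /-- the multiplicative Hecke operator `T_p` -/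
  T : ∀ p : ℕ, p.Prime → ¬ p ∣ M → W →+ W
  /-- the diamond operator `⟨p⟩` -/
  D : ∀ p : ℕ, p.Prime → ¬ p ∣ M → W →+ W
  T_ρ : ∀ (p : ℕ) (hp : p.Prime) (hpM : ¬ p ∣ M) (σ : GQ) (w : W),
    T p hp hpM (ρ σ w) = ρ σ (T p hp hpM w)
  D_ρ : ∀ (p : ℕ) (hp : p.Prime) (hpM : ¬ p ∣ M) (σ : GQ) (w : W),
    D p hp hpM (ρ σ w) = ρ σ (D p hp hpM w)
  openStab : ∀ w : W, ∃ L : IntermediateField ℚ (AlgebraicClosure ℚ), FiniteDimensional ℚ L ∧
    ∀ σ : GQ, (∀ x ∈ L, σ x = x) → ρ σ w = w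
  unramified : ∀ q : ℕ, q.Prime → ¬ q ∣ M → ¬ q ∣ n → ∀ σ : GQ, IsInert σ q → ∀ w, ρ σ w = w
  eichlerShimura : ∀ (p : ℕ) (hp : p.Prime) (hpM : ¬ p ∣ M), ¬ p ∣ n → ∀ σ : GQ, IsFrob σ p →
    ∀ w : W, ρ σ (ρ σ w) - T p hp hpM (ρ σ w) + (p : ℕ) • D p hp hpM w = 0
  /-- the multiplier map -/
  mult : W →+ (Additive ↥(H1 M 1) →+ ZMod n)
  mult_injective : Function.Injective mult
  mult_mem : ∀ w, mult w ∈ homPE (H1 M 1) (ZMod n)
  mult_surjective : ∀ ψ ∈ homPE (H1 M 1) (ZMod n), ∃ w, mult w = ψ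
  mult_T : ∀ (p : ℕ) (hp : p.Prime) (hpM : ¬ p ∣ M) (w : W),
    mult (T p hp hpM w) = (TH p hp hpM).op (ZMod n) (mult w)
  mult_D : ∀ (p : ℕ) (hp : p.Prime) (hpM : ¬ p ∣ M) (w : W),
    mult (D p hp hpM w) = (DH p hp hpM).op (ZMod n) (mult w)

attribute [instance] KummerPackage1.instAddCommGroup

/-- **What the block H delivers** at level `±Γ₁(M)`. -/
structure HBlock (M : ℕ) (TH DH : OpFam M) : Type where
  fg : Group.FG ↥(H1 M 1)
  /-- the operators preserve the integral parabolic homomorphisms -/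
  TH_mem : ∀ (p : ℕ) (hp : p.Prime) (hpM : ¬ p ∣ M) (ψ : Additive ↥(H1 M 1) →+ ℤ),
    ψ ∈ homPE (H1 M 1) ℤ → (TH p hp hpM).op ℤ ψ ∈ homPE (H1 M 1) ℤ
  DH_mem : ∀ (p : ℕ) (hp : p.Prime) (hpM : ¬ p ∣ M) (ψ : Additive ↥(H1 M 1) →+ ℤ),
    ψ ∈ homPE (H1 M 1) ℤ → (DH p hp hpM).op ℤ ψ ∈ homPE (H1 M 1) ℤ
  /-- the diamond operators commute on `Hom(H, ℤ/n)` (used only through `mult_injective`) -/
  DH_comm : ∀ (p : ℕ) (hp : p.Prime) (hpM : ¬ p ∣ M) (q : ℕ) (hq : q.Prime) (hqM : ¬ q ∣ M)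
    (A : Type) [AddCommGroup A] (ψ : Additive ↥(H1 M 1) →+ A),
    (DH p hp hpM).op A ((DH q hq hqM).op A ψ) = (DH q hq hqM).op A ((DH p hp hpM).op A ψ)
  /-- `T_p` on cusp forms -/
  TS : ∀ p : ℕ, p.Prime → ¬ p ∣ M → CuspForm (Gamma1 M) 2 →+ CuspForm (Gamma1 M) 2
  /-- `⟨p⟩` on cusp forms -/
  DS : ∀ p : ℕ, p.Prime → ¬ p ∣ M → CuspForm (Gamma1 M) 2 →+ CuspForm (Gamma1 M) 2
  /-- the period map `f ↦ (γ ↦ ∫_{τ₀}^{γ τ₀} f)` -/
  per : CuspForm (Gamma1 M) 2 →+ (Additive ↥(H1 M 1) →+ ℂ)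
  per_injective : Function.Injective per
  per_mem : ∀ f, per f ∈ homPE (H1 M 1) ℂ
  per_T : ∀ (p : ℕ) (hp : p.Prime) (hpM : ¬ p ∣ M) (f : CuspForm (Gamma1 M) 2),
    per (TS p hp hpM f) = (TH p hp hpM).op ℂ (per f)
  per_D : ∀ (p : ℕ) (hp : p.Prime) (hpM : ¬ p ∣ M) (f : CuspForm (Gamma1 M) 2),
    per (DS p hp hpM f) = (DH p hp hpM).op ℂ (per f)
  neb_T : ∀ (p : ℕ) (hp : p.Prime) (hpM : ¬ p ∣ M) (χ : DirichletCharacter ℂ M)
    (f : CuspForm (Gamma1 M) 2), IsNeb χ f → IsNeb χ (TS p hp hpM f)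
  qCoeff_T : ∀ (p : ℕ) (hp : p.Prime) (hpM : ¬ p ∣ M) (χ : DirichletCharacter ℂ M)
    (f : CuspForm (Gamma1 M) 2), IsNeb χ f → ∀ n : ℕ,
    ModularFormClass.qCoeff (TS p hp hpM f) n = ModularFormClass.qCoeff f (p * n) +
      χ (p : ZMod M) * (p : ℂ) * (if p ∣ n then ModularFormClass.qCoeff f (n / p) else 0)
  DS_eq : ∀ (p : ℕ) (hp : p.Prime) (hpM : ¬ p ∣ M) (χ : DirichletCharacter ℂ M)
    (f : CuspForm (Gamma1 M) 2), IsNeb χ f → DS p hp hpM f = χ (p : ZMod M) • f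

/-- **The input of block TOP.** -/
def TopInput : Prop :=
  ∀ (M : ℕ) [NeZero M] (ℓ : ℕ), ℓ.Prime → 5 ≤ ℓ → ℓ ∣ M →
    ∃ TH DH : OpFam M, Nonempty (KummerPackage1 M ℓ TH DH) ∧ Nonempty (HBlock M TH DH)

end Fermat.Agent.S48.BB.Top
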