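/-
S48, block BB, sub-block TOP, node TOP-A (owner helper217).
-/
import Mathlib

set_option autoImplicit false

namespace Fermat.Agent.S48.BB.Top

/-- a monic integral polynomial whose lower coefficients are divisible by `ℓ` has only the root `0`
in characteristic `ℓ` -/
theorem eq_zero_of_aeval_eq_zero {κ : Type*} [Field κ] (ℓ : ℕ) [CharP κ ℓ] (S : Polynomial ℤ)
    (hS : S.Monic) (hdiv : ∀ i < S.natDegree, (ℓ : ℤ) ∣ S.coeff i) (t : κ)
    (h : Polynomial.aeval t S = 0) : t = 0 := by
  have hmap : S.map (Int.castRingHom κ) = Polynomial.X ^ S.natDegree := by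
    ext i
    rw [Polynomial.coeff_map, Polynomial.coeff_X_pow]
    rcases lt_trichotomy i S.natDegree with hi | hi | hi
    · rw [if_neg hi.ne, eq_intCast, CharP.intCast_eq_zero_iff κ ℓ]
      exact hdiv i hi
    · rw [if_pos hi, hi, hS.coeff_natDegree, map_one]
    · rw [if_neg hi.ne', Polynomial.coeff_eq_zero_of_natDegree_lt hi, map_zero]
  have h2 : t ^ S.natDegree = 0 := by
    have h3 : Polynomial.aeval t S = (S.map (Int.castRingHom κ)).eval t := by
      rw [Polynomial.aeval_def, Polynomial.eval_map]
      congr 1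
    rw [← h, h3, hmap, Polynomial.eval_pow, Polynomial.eval_X]
  exact pow_eq_zero_iff (n := S.natDegree) (by
    intro h0
    rw [h0, pow_zero] at h2
    exact one_ne_zero h2) |>.mp h2

end Fermat.Agent.S48.BB.Top
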