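/-
S48, block BB, sub-block TOP (helper89).  Pure algebra (abstract form of `S29.result_of_faithful`):
a finite module `Mo` over a commutative ring `R` with a commuting action `ρ` of a group `G`, and a
character `θ : R → κ` which kills the annihilator of `Mo`, give a nonzero finite dimensional
`κ`-vector space with an action `r` of `G` such that `r g = 1` whenever `ρ g = 1`, and on which every
quadratic relation with coefficients in `R` holds with the coefficients replaced by their images.
-/
import Fermat.Agent.S29.FromFaithful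

set_option autoImplicit false

namespace Fermat.Agent.S48.BB.Top

open TensorProduct Fermat.Agent.S29 Fermat.Agent.S29.Socle

theorem exists_eigenmodule {G : Type} [Group G] {κ : Type} [Field κ] {R : Type} [CommRing R]
    {Mo : Type} [AddCommGroup Mo] [Module R Mo] [Finite Mo]
    (θ : R →+* κ) (hθ : ∀ x : R, (∀ m : Mo, x • m = 0) → θ x = 0)
    (ρ : G →* Module.End R Mo) :
    ∃ (W : Type) (_ : AddCommGroup W) (_ : Module κ W) (_ : FiniteDimensional κ W)
      (_ : Nontrivial W) (r : G →* Module.End κ W),
      (∀ g, ρ g = 1 → r g = 1) ∧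
      (∀ (g : G) (a b : R), ρ g * ρ g - a • ρ g + b • (1 : Module.End R Mo) = 0 →
        r g * r g - θ a • r g + θ b • (1 : Module.End κ W) = 0) := by
  have hmax : (RingHom.ker θ).IsMaximal := ker_isMaximal_of_ann θ hθ
  set I : Ideal R := RingHom.ker θ with hI
  let _ : Field (R ⧸ I) := Ideal.Quotient.field I
  let _ : Algebra (R ⧸ I) κ := (RingHom.kerLift θ).toAlgebra
  have halg : ∀ a : R, algebraMap (R ⧸ I) κ (Ideal.Quotient.mk I a) = θ a := fun a => rfl
  obtain ⟨y, hy0, hy⟩ := exists_ne_zero_killed I hmax.ne_top (fun x hx => hθ x hx)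
  let M₀ := Submodule.torsionBySet R Mo (I : Set R)
  have hnt : Nontrivial M₀ := by
    refine ⟨⟨⟨y, ?_⟩, 0, ?_⟩⟩
    · rw [Submodule.mem_torsionBySet_iff]
      exact fun a => hy a a.2
    · intro h
      exact hy0 (congrArg Subtype.val h)
  have hfinM₀ : Module.Finite (R ⧸ I) M₀ := Module.Finite.of_finite
  let W := κ ⊗[R ⧸ I] M₀
  have hWfin : FiniteDimensional κ W := inferInstance
  have hWnt : Nontrivial W := by
    apply Module.nontrivial_of_finrank_pos (R := κ)
    rw [Module.finrank_baseChange]
    exact Module.finrank_pos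
  let bc : Module.End (R ⧸ I) M₀ →ₐ[R ⧸ I] Module.End κ W := Module.End.baseChangeHom (R ⧸ I) κ M₀
  let r : G →* Module.End κ W := (bc : Module.End (R ⧸ I) M₀ →* Module.End κ W).comp (torsionRep ρ I)
  have hr : ∀ σ, r σ = bc (torsionRep ρ I σ) := fun σ => rfl
  refine ⟨W, inferInstance, inferInstance, hWfin, hWnt, r, ?_, ?_⟩
  · intro σ h
    rw [hr, torsionRep_eq_one I h, map_one]
  · intro σ a b hrel
    have h1 := congrArg bc (torsionRep_rel I hrel)
    rw [map_zero, map_add, map_sub, map_mul, map_smul, map_smul, map_one, ← hr,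
      ← algebraMap_smul κ (Ideal.Quotient.mk I a), ← algebraMap_smul κ (Ideal.Quotient.mk I b),
      halg, halg] at h1
    exact h1

end Fermat.Agent.S48.BB.Top
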