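/-
S48, block BB, sub-block TOP (architect helper89), node TOP-F (owner of this file: helper247).
-/
import Fermat.Agent.S48.Defs

set_option autoImplicit false

noncomputable section

namespace Fermat.Agent.S48.BB.Top

/-! ### TOP-F  FinLevel.lean : finite level -/

theorem exists_finiteLevel {W : Type*} [AddCommGroup W] [Finite W] (ρ : GQ → W →+ W)
    (openStab : ∀ w : W, ∃ L : IntermediateField ℚ (AlgebraicClosure ℚ), FiniteDimensional ℚ L ∧
      ∀ σ : GQ, (∀ x ∈ L, σ x = x) → ρ σ w = w) :
    ∃ L : IntermediateField ℚ (AlgebraicClosure ℚ), FiniteDimensional ℚ L ∧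
      ∀ σ : GQ, (∀ x ∈ L, σ x = x) → ∀ w, ρ σ w = w := by
  choose L hfin hL using openStab
  have : ∀ w, FiniteDimensional ℚ (L w) := hfin
  refine ⟨⨆ w, L w, IntermediateField.finiteDimensional_iSup_of_finite, fun σ hσ w => ?_⟩
  exact hL w σ fun x hx => hσ x ((le_iSup L w) hx)

end Fermat.Agent.S48.BB.Top

end
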