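/-
S48, block BB, sub-block TOP (helper89).  Pure algebra: the action of the free algebra `ℤ⟨X_i⟩` on an
abelian group attached to a family of endomorphisms, intertwiners, stable subgroups, comparison with
the polynomial ring when the endomorphisms commute.
-/
import Fermat.Agent.S48.BB.Top.HAModule

set_option autoImplicit false

noncomputable section

namespace Fermat.Agent.S48.BB.Top

variable {ι : Type*}

/-- The action of the free algebra on `X` attached to the endomorphisms `g i`. -/
def act {X : Type*} [AddCommGroup X] (g : ι → X →+ X) : FreeAlgebra ℤ ι →ₐ[ℤ] Module.End ℤ X :=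
  FreeAlgebra.lift ℤ (fun i => (g i).toIntLinearMap)

theorem act_ι {X : Type*} [AddCommGroup X] (g : ι → X →+ X) (i : ι) (x : X) :
    act g (FreeAlgebra.ι ℤ i) x = g i x := by
  rw [act, FreeAlgebra.lift_ι_apply]
  rfl

theorem act_algebraMap {X : Type*} [AddCommGroup X] (g : ι → X →+ X) (a : ℤ) (x : X) :
    act g (algebraMap ℤ (FreeAlgebra ℤ ι) a) x = a • x := by
  rw [AlgHom.commutes, Module.algebraMap_end_apply]

theorem act_mul {X : Type*} [AddCommGroup X] (g : ι → X →+ X) (P Q : FreeAlgebra ℤ ι) (x : X) :
    act g (P * Q) x = act g P (act g Q x) := by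
  rw [map_mul, Module.End.mul_apply]

theorem act_add {X : Type*} [AddCommGroup X] (g : ι → X →+ X) (P Q : FreeAlgebra ℤ ι) (x : X) :
    act g (P + Q) x = act g P x + act g Q x := by
  rw [map_add, LinearMap.add_apply]

/-- An additive map which intertwines the generators intertwines the whole free algebra. -/
theorem act_intertwine {X Y : Type*} [AddCommGroup X] [AddCommGroup Y] (g : ι → X →+ X)
    (g' : ι → Y →+ Y) (π : X →+ Y) (h : ∀ i x, π (g i x) = g' i (π x)) (P : FreeAlgebra ℤ ι)
    (x : X) : π (act g P x) = act g' P (π x) := by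
  induction P using FreeAlgebra.induction generalizing x with
  | grade0 a => rw [act_algebraMap, act_algebraMap, map_zsmul]
  | grade1 i => rw [act_ι, act_ι, h]
  | mul P Q hP hQ => rw [act_mul, act_mul, hP, hQ]
  | add P Q hP hQ => rw [act_add, act_add, map_add, hP, hQ]

/-- A subgroup which is stable under the generators is stable under the whole free algebra. -/
theorem act_mem {X : Type*} [AddCommGroup X] (g : ι → X →+ X) (K : AddSubgroup X)
    (h : ∀ i x, x ∈ K → g i x ∈ K) (P : FreeAlgebra ℤ ι) (x : X) (hx : x ∈ K) :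
    act g P x ∈ K := by
  induction P using FreeAlgebra.induction generalizing x with
  | grade0 a => rw [act_algebraMap]; exact K.zsmul_mem hx a
  | grade1 i => rw [act_ι]; exact h i x hx
  | mul P Q hP hQ => rw [act_mul]; exact hP _ (hQ _ hx)
  | add P Q hP hQ => rw [act_add]; exact K.add_mem (hP _ hx) (hQ _ hx)

/-- The projection of the free algebra onto the polynomial ring. -/
def toHA : FreeAlgebra ℤ ι →ₐ[ℤ] MvPolynomial ι ℤ := FreeAlgebra.lift ℤ MvPolynomial.X

theorem toHA_ι (i : ι) : toHA (FreeAlgebra.ι ℤ i) = MvPolynomial.X i := by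
  rw [toHA, FreeAlgebra.lift_ι_apply]

theorem toHA_surjective : Function.Surjective (toHA (ι := ι)) := by
  intro P
  induction P using MvPolynomial.induction_on with
  | C a => exact ⟨algebraMap ℤ _ a, by rw [AlgHom.commutes]; rfl⟩
  | add p q hp hq =>
    obtain ⟨p', rfl⟩ := hp
    obtain ⟨q', rfl⟩ := hq
    exact ⟨p' + q', map_add _ _ _⟩
  | mul_X p i hp =>
    obtain ⟨p', rfl⟩ := hp
    exact ⟨p' * FreeAlgebra.ι ℤ i, by rw [map_mul, toHA_ι]⟩

/-- Evaluation of the free algebra in a commutative ring factors through the polynomial ring. -/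
theorem lift_eq_aeval_toHA {R : Type*} [CommRing R] (c : ι → R) (P : FreeAlgebra ℤ ι) :
    FreeAlgebra.lift ℤ c P = MvPolynomial.aeval c (toHA P) := by
  have h : FreeAlgebra.lift ℤ c = (MvPolynomial.aeval c).comp toHA := by
    apply FreeAlgebra.hom_ext
    funext i
    simp [toHA_ι]
  rw [h]
  rfl

/-- For commuting endomorphisms the action of the free algebra factors through `haHom`. -/
theorem act_eq_haHom_toHA {W : Type*} [AddCommGroup W] (g : ι → W →+ W) (T : ι → AddMonoid.End W)
    (hgT : ∀ i w, g i w = T i w)
    (hT : ∀ i j, Commute (T i) (T j)) (P : FreeAlgebra ℤ ι) (w : W) :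
    act g P w = haHom T hT (toHA P) w := by
  induction P using FreeAlgebra.induction generalizing w with
  | grade0 a =>
    rw [act_algebraMap, AlgHom.commutes]
    have h : haHom T hT (algebraMap ℤ (MvPolynomial ι ℤ) a) = algebraMap ℤ (Module.End ℤ W) a := by
      rw [eq_intCast, map_intCast]
      simp
    rw [h, Module.algebraMap_end_apply]
  | grade1 i => rw [act_ι, toHA_ι, haHom_X, linT_apply, hgT]
  | mul P Q hP hQ => rw [act_mul, map_mul, map_mul, Module.End.mul_apply, hP, hQ]
  | add P Q hP hQ => rw [act_add, map_add, map_add, LinearMap.add_apply, hP, hQ]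

end Fermat.Agent.S48.BB.Top

end
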