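/-
S48, block BB, sub-block TOP (helper89).  The index set of the variables `T_p`, `⟨p⟩`.
-/
import Mathlib

set_option autoImplicit false

namespace Fermat.Agent.S48.BB.Top

/-- The primes not dividing `M`. -/
abbrev GoodP (M : ℕ) : Type := {p : ℕ // p.Prime ∧ ¬ p ∣ M}

/-- The variables `T_p` (`inl p`) and `⟨p⟩` (`inr p`). -/
abbrev Idx (M : ℕ) : Type := GoodP M ⊕ GoodP M

/-- The family of generators attached to two families indexed by the good primes. -/
def gens {M : ℕ} {X : Type*} (TX DX : ∀ p : ℕ, p.Prime → ¬ p ∣ M → X) : Idx M → X :=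
  Sum.elim (fun p => TX p.1 p.2.1 p.2.2) (fun p => DX p.1 p.2.1 p.2.2)

theorem gens_inl {M : ℕ} {X : Type*} (TX DX : ∀ p : ℕ, p.Prime → ¬ p ∣ M → X) (p : GoodP M) :
    gens TX DX (Sum.inl p) = TX p.1 p.2.1 p.2.2 := rfl

theorem gens_inr {M : ℕ} {X : Type*} (TX DX : ∀ p : ℕ, p.Prime → ¬ p ∣ M → X) (p : GoodP M) :
    gens TX DX (Sum.inr p) = DX p.1 p.2.1 p.2.2 := rfl

end Fermat.Agent.S48.BB.Top
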