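/-
S48, block BB, sub-block TOP, task BB-TOP-L1: `Hom(Γ, -)` for a finitely generated group.
-/
import Fermat.Agent.S48.BB.Top.Contract

set_option autoImplicit false

namespace Fermat.Agent.S48.BB.Top

section Lattice

variable {Γ : Type*} [Group Γ] (X : Set Γ)

theorem comp_mem_homK {A B : Type*} [AddCommGroup A] [AddCommGroup B] (g : A →+ B)
    {φ : Additive Γ →+ A} (hφ : φ ∈ homK X A) : g.comp φ ∈ homK X B := by
  intro γ hγ
  rw [AddMonoidHom.comp_apply, hφ γ hγ, map_zero]

/-- restriction of homomorphisms to a subset. -/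
def Lattice.res (s : Set Γ) (A : Type*) [AddCommGroup A] : (Additive Γ →+ A) →+ (s → A) where
  toFun ψ := fun x => ψ (Additive.ofMul (x : Γ))
  map_zero' := rfl
  map_add' _ _ := rfl

theorem Lattice.res_injective {s : Set Γ} (hs : Subgroup.closure s = ⊤) (A : Type*)
    [AddCommGroup A] : Function.Injective (Lattice.res s A) := by
  rw [injective_iff_map_eq_zero]
  intro ψ hψ
  have h0 : ∀ x ∈ s, ψ (Additive.ofMul x) = 0 := fun x hx => congrFun hψ ⟨x, hx⟩
  refine AddMonoidHom.ext fun a => ?_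
  have hmem : Additive.toMul a ∈ Subgroup.closure s := by rw [hs]; exact Subgroup.mem_top _
  have key : ∀ g ∈ Subgroup.closure s, ψ (Additive.ofMul g) = 0 := by
    intro g hg
    induction hg using Subgroup.closure_induction with
    | mem x hx => exact h0 x hx
    | one => exact map_zero ψ
    | mul x y _ _ hx hy => rw [ofMul_mul, map_add, hx, hy, add_zero]
    | inv x _ hx => rw [ofMul_inv, map_neg, hx, neg_zero]
  exact key _ hmem

theorem finite_hom_of_fg [Group.FG Γ] (A : Type*) [AddCommGroup A] [Finite A] :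
    Finite (Additive Γ →+ A) := by
  obtain ⟨s, hs⟩ := (Group.FG.out : (⊤ : Subgroup Γ).FG)
  exact Finite.of_injective _ (Lattice.res_injective hs A)

theorem finite_homK_int [Group.FG Γ] : Module.Finite ℤ (homK X ℤ) := by
  obtain ⟨s, hs⟩ := (Group.FG.out : (⊤ : Subgroup Γ).FG)
  let f : (homK X ℤ) →ₗ[ℤ] (((s : Set Γ) : Type _) → ℤ) :=
    ((Lattice.res (s : Set Γ) ℤ).comp (homK X ℤ).subtype).toIntLinearMap
  have hf : Function.Injective f :=
    (Lattice.res_injective hs ℤ).comp Subtype.val_injective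
  exact Module.Finite.of_injective f hf

theorem free_homK_int [Group.FG Γ] : Module.Free ℤ (homK X ℤ) := by
  obtain ⟨s, hs⟩ := (Group.FG.out : (⊤ : Subgroup Γ).FG)
  let f : (homK X ℤ) →ₗ[ℤ] (((s : Set Γ) : Type _) → ℤ) :=
    ((Lattice.res (s : Set Γ) ℤ).comp (homK X ℤ).subtype).toIntLinearMap
  have hf : Function.Injective f :=
    (Lattice.res_injective hs ℤ).comp Subtype.val_injective
  have h1 : Module.Finite ℤ (homK X ℤ) := Module.Finite.of_injective f hf
  have h2 : Module.IsTorsionFree ℤ (homK X ℤ) := hf.moduleIsTorsionFree f (fun _ _ => map_smul f _ _)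
  exact Module.free_of_finite_type_torsion_free'

theorem exists_eq_nsmul_of_cast_eq_zero (n : ℕ) (hn : 0 < n) (φ : Additive Γ →+ ℤ)
    (hφ : φ ∈ homK X ℤ) (h : (Int.castAddHom (ZMod n)).comp φ = 0) :
    ∃ ψ ∈ homK X ℤ, φ = n • ψ := by
  have hdvd : ∀ x, (n : ℤ) ∣ φ x := by
    intro x
    rw [← ZMod.intCast_zmod_eq_zero_iff_dvd]
    exact congrArg (fun χ : Additive Γ →+ ZMod n => χ x) h
  let ψ : Additive Γ →+ ℤ :=
    AddMonoidHom.mk' (fun x => φ x / n) (by
      intro x y
      rw [map_add]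
      exact Int.add_ediv_of_dvd_left (hdvd x))
  refine ⟨ψ, ?_, ?_⟩
  · intro γ hγ
    show φ (Additive.ofMul γ) / n = 0
    rw [hφ γ hγ, Int.zero_ediv]
  · refine AddMonoidHom.ext fun x => ?_
    show _ = n • (φ x / n)
    rw [nsmul_eq_mul, Int.mul_ediv_cancel' (hdvd x)]

end Lattice

end Fermat.Agent.S48.BB.Top
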