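/-
S48, block BB, sub-block TOP, task BB-TOP-L2 (helper230): complex valued homomorphisms killing `X`
are complex combinations of integral homomorphisms killing `X`.
-/
import Fermat.Agent.S48.BB.Top.Contract

set_option autoImplicit false

noncomputable section

namespace Fermat.Agent.S48.BB.Top

open CongruenceSubgroup ModularGroup
open scoped MatrixGroups ModularForm

section Lattice

variable {Γ : Type*} [Group Γ] (X : Set Γ)

/-- every complex valued homomorphism killing `X` is a complex combination of integral ones -/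
theorem exists_decomp [Group.FG Γ] (ψ : Additive Γ →+ ℂ) (hψ : ψ ∈ homK X ℂ) :
    ∃ (r : ℕ) (z : Fin r → ℂ) (φ : Fin r → Additive Γ →+ ℤ), (∀ k, φ k ∈ homK X ℤ) ∧
      ψ = ∑ k, (AddMonoidHom.mulLeft (z k)).comp ((Int.castAddHom ℂ).comp (φ k)) := by
  have hfg : AddGroup.FG ψ.range := AddGroup.fg_range ψ
  have hfin : Module.Finite ℤ ψ.range := Module.Finite.iff_addGroup_fg.mpr hfg
  have htf : Module.IsTorsionFree ℤ ψ.range := inferInstance
  obtain ⟨r, e⟩ : Σ n : ℕ, Module.Basis (Fin n) ℤ ψ.range := Module.basisOfFiniteTypeTorsionFree'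
  refine ⟨r, fun k => (e k : ℂ), fun k => (e.coord k).toAddMonoidHom.comp ψ.rangeRestrict,
    fun k γ hγ => ?_, ?_⟩
  · have h0 : ψ.rangeRestrict (Additive.ofMul γ) = 0 := Subtype.ext (hψ γ hγ)
    show e.coord k (ψ.rangeRestrict (Additive.ofMul γ)) = 0
    rw [h0, map_zero]
  · refine AddMonoidHom.ext fun γ => ?_
    have h1 := e.sum_repr (ψ.rangeRestrict γ)
    have h2 := congrArg (Subtype.val : ψ.range → ℂ) h1
    rw [AddMonoidHom.finset_sum_apply]
    have h3 : (ψ.rangeRestrict γ : ℂ) = ψ γ := rfl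
    rw [← h3, ← h2, AddSubgroup.val_finset_sum]
    refine Finset.sum_congr rfl fun k _ => ?_
    show ((e.repr (ψ.rangeRestrict γ) k • e k : ψ.range) : ℂ)
      = (e k : ℂ) * ((e.coord k (ψ.rangeRestrict γ) : ℤ) : ℂ)
    rw [AddSubgroup.coe_zsmul, zsmul_eq_mul, mul_comm]
    rfl

end Lattice

end Fermat.Agent.S48.BB.Top
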