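/-
S48, block BB, sub-block TOP, node O2 (helper263): transfer `ℤ → ℂ`.  A word in natural operators which
kills the integral homomorphisms killing `X` kills the complex ones.
-/
import Fermat.Agent.S48.BB.Top.Contract
import Fermat.Agent.S48.BB.Top.FreeAct
import Fermat.Agent.S48.BB.Top.Decomp

set_option autoImplicit false

noncomputable section

namespace Fermat.Agent.S48.BB.Top

/-- naturality of a word in natural operators -/
theorem OccC_act_comp {Γ : Type} [Group Γ] {ι : Type} (ops : ι → NatOp Γ) (Q : FreeAlgebra ℤ ι)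
    {A B : Type} [AddCommGroup A] [AddCommGroup B] (g : A →+ B) (φ : Additive Γ →+ A) :
    act (fun i => (ops i).op B) Q (g.comp φ) = g.comp (act (fun i => (ops i).op A) Q φ) :=
  (act_intertwine (fun i => (ops i).op A) (fun i => (ops i).op B) (AddMonoidHom.compHom g)
    (fun i x => ((ops i).nat g x).symm) Q φ).symm

theorem act_complex_eq_zero {Γ : Type} [Group Γ] [Group.FG Γ] (X : Set Γ) {ι : Type}
    (ops : ι → NatOp Γ) (Q : FreeAlgebra ℤ ι)
    (hQ : ∀ φ ∈ homK X ℤ, act (fun i => (ops i).op ℤ) Q φ = 0) :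
    ∀ ψ ∈ homK X ℂ, act (fun i => (ops i).op ℂ) Q ψ = 0 := by
  intro ψ hψ
  obtain ⟨r, z, φ, hφ, rfl⟩ := exists_decomp X ψ hψ
  rw [map_sum]
  refine Finset.sum_eq_zero fun k _ => ?_
  rw [← AddMonoidHom.comp_assoc, OccC_act_comp, hQ (φ k) (hφ k), AddMonoidHom.comp_zero]

end Fermat.Agent.S48.BB.Top

end
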