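/-
S48, block BB, sub-block TOP (architect helper89).  TASK BB-TOP-O1 (helper70).
The integral half of the occurrence theorem: a word `P` in the natural operators which kills
`Hom(Γ, ℤ/n)` (the part killing `X`) satisfies on the lattice `Hom(Γ, ℤ)` a monic integral equation
whose lower coefficients are divisible by `n` (Cayley-Hamilton for `P / n`).
-/
import Fermat.Agent.S48.BB.Top.Lattice
import Fermat.Agent.S48.BB.Top.FreeAct
import Fermat.Agent.Lib.HeckeHom.Saturation

set_option autoImplicit false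

noncomputable section

namespace Fermat.Agent.S48.BB.Top

open Polynomial

/-- The restriction of a family of endomorphisms to a stable subgroup. -/
def occIntRes {ι : Type*} {Y : Type*} [AddCommGroup Y] (g : ι → Y →+ Y) (K : AddSubgroup Y)
    (h : ∀ i x, x ∈ K → g i x ∈ K) (i : ι) : K →+ K :=
  ((g i).comp K.subtype).codRestrict K (fun x => h i x x.2)

theorem occIntRes_act {ι : Type*} {Y : Type*} [AddCommGroup Y] (g : ι → Y →+ Y)
    (K : AddSubgroup Y) (h : ∀ i x, x ∈ K → g i x ∈ K) (Q : FreeAlgebra ℤ ι) (x : K) :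
    ((act (occIntRes g K h) Q x : K) : Y) = act g Q (x : Y) :=
  act_intertwine (occIntRes g K h) g K.subtype (fun _ _ => rfl) Q x

theorem occ_int {Γ : Type} [Group Γ] [Group.FG Γ] (X : Set Γ) {ι : Type} (ops : ι → NatOp Γ)
    (hmem : ∀ (i : ι) (ψ : Additive Γ →+ ℤ), ψ ∈ homK X ℤ → (ops i).op ℤ ψ ∈ homK X ℤ)
    (n : ℕ) (hn : 0 < n) (P : FreeAlgebra ℤ ι)
    (hP : ∀ ψ ∈ homK X (ZMod n), act (fun i => (ops i).op (ZMod n)) P ψ = 0) :
    ∃ S : Polynomial ℤ, S.Monic ∧ (∀ i < S.natDegree, (n : ℤ) ∣ S.coeff i) ∧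
      ∀ φ ∈ homK X ℤ, act (fun i => (ops i).op ℤ) (Polynomial.aeval P S) φ = 0 := by
  have : Module.Free ℤ (homK X ℤ) := free_homK_int X
  have : Module.Finite ℤ (homK X ℤ) := finite_homK_int X
  set g : ι → (Additive Γ →+ ℤ) →+ (Additive Γ →+ ℤ) := fun i => (ops i).op ℤ with hg
  set g' := occIntRes g (homK X ℤ) hmem with hg'
  have hres : ∀ (Q : FreeAlgebra ℤ ι) (x : homK X ℤ),
      ((act g' Q x : homK X ℤ) : Additive Γ →+ ℤ) = act g Q (x : Additive Γ →+ ℤ) :=
    occIntRes_act g (homK X ℤ) hmem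
  -- the image of `P` lies in `n Λ`
  have hdiv : ∀ x : homK X ℤ, ∃ y : homK X ℤ, act g' P x = n • y := by
    intro x
    have h1 : (Int.castAddHom (ZMod n)).comp (act g P (x : Additive Γ →+ ℤ)) = 0 := by
      have h2 := act_intertwine g (fun i => (ops i).op (ZMod n))
        (AddMonoidHom.compHom (Int.castAddHom (ZMod n)))
        (fun i ψ => ((ops i).nat (Int.castAddHom (ZMod n)) ψ).symm) P (x : Additive Γ →+ ℤ)
      rw [AddMonoidHom.compHom_apply_apply, AddMonoidHom.compHom_apply_apply] at h2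
      rw [h2]
      exact hP _ (comp_mem_homK X _ x.2)
    obtain ⟨ψ, hψ, hψ'⟩ := exists_eq_nsmul_of_cast_eq_zero X n hn _
      (act_mem g (homK X ℤ) hmem P _ x.2) h1
    refine ⟨⟨ψ, hψ⟩, Subtype.ext ?_⟩
    rw [hres, hψ']
    rfl
  obtain ⟨e, he⟩ := Fermat.Agent.Lib.HeckeHom.Saturation.exists_eq_nsmul n hn (act g' P) hdiv
  set C : ℤ[X] := LinearMap.charpoly e with hC
  have hCm : C.Monic := LinearMap.charpoly_monic e
  have hCe : aeval e C = 0 := LinearMap.aeval_self_charpoly e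
  have h1 : aeval (act g' P) (scaleRoots C (n : ℤ)) = 0 := by
    have := scaleRoots_aeval_eq_zero (r := (n : ℤ)) hCe
    rw [he]
    convert this using 2
    simp
  refine ⟨scaleRoots C (n : ℤ), (monic_scaleRoots_iff _).2 hCm, ?_, ?_⟩
  · intro i hi
    rw [natDegree_scaleRoots] at hi
    rw [coeff_scaleRoots]
    exact Dvd.dvd.mul_left (dvd_pow_self _ (Nat.sub_ne_zero_of_lt hi)) _
  · intro φ hφ
    have h2 := hres (aeval P (scaleRoots C (n : ℤ))) ⟨φ, hφ⟩
    rw [← Polynomial.aeval_algHom_apply, h1] at h2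
    exact h2.symm

end Fermat.Agent.S48.BB.Top

end
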