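/-
S48, block BB, sub-block TOP, node TOP-T (task BB-TOP-T, helper292): a word `Q` in the operators
`T_p`, `⟨p⟩` which kills the form `h` is killed by the mod `ℓ` eigencharacter of `h`.
-/
import Fermat.Agent.S48.BB.Top.Contract
import Fermat.Agent.S48.BB.Top.FreeAct
import Fermat.Agent.S48.BB.Top.Index

set_option autoImplicit false

noncomputable section

namespace Fermat.Agent.S48.BB.Top

open CongruenceSubgroup ModularGroup
open scoped MatrixGroups ModularForm

/-! ### `q`-coefficients -/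

theorem theta_strictPeriods (M : ℕ) :
    (1 : ℝ) ∈ ((Gamma1 M : Subgroup (GL (Fin 2) ℝ))).strictPeriods := by
  simp [CongruenceSubgroup.strictPeriods_Gamma1]

theorem theta_qCoeff_add {M : ℕ} (f g : CuspForm (Gamma1 M) 2) (n : ℕ) :
    ModularFormClass.qCoeff ⇑(f + g) n =
      ModularFormClass.qCoeff ⇑f n + ModularFormClass.qCoeff ⇑g n := by
  simp only [ModularFormClass.qCoeff, FunLike.coe_add]
  rw [ModularForm.qExpansion_add one_pos (theta_strictPeriods M) f g, map_add]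

theorem theta_qCoeff_smul {M : ℕ} (c : ℂ) (f : CuspForm (Gamma1 M) 2) (n : ℕ) :
    ModularFormClass.qCoeff ⇑(c • f) n = c * ModularFormClass.qCoeff ⇑f n := by
  unfold ModularFormClass.qCoeff
  rw [FunLike.coe_smul, ModularForm.qExpansion_smul one_pos (theta_strictPeriods M) c f,
    PowerSeries.coeff_smul, smul_eq_mul]

theorem theta_qCoeff_zero {M : ℕ} (n : ℕ) :
    ModularFormClass.qCoeff ⇑(0 : CuspForm (Gamma1 M) 2) n = 0 := by
  simp only [ModularFormClass.qCoeff, FunLike.coe_zero]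
  rw [UpperHalfPlane.qExpansion_zero, map_zero]

/-! ### the nebentypus -/

theorem theta_isNeb_add {M : ℕ} {χ : DirichletCharacter ℂ M} {f g : CuspForm (Gamma1 M) 2}
    (hf : IsNeb χ f) (hg : IsNeb χ g) : IsNeb χ (f + g) := by
  intro γ hγ
  rw [FunLike.coe_add, SlashAction.add_slash, hf γ hγ, hg γ hγ, smul_add]

theorem theta_isNeb_smul {M : ℕ} {χ : DirichletCharacter ℂ M} {f : CuspForm (Gamma1 M) 2}
    (c : ℂ) (hf : IsNeb χ f) : IsNeb χ (c • f) := by
  intro γ hγ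
  rw [FunLike.coe_smul, ModularForm.SL_smul_slash, hf γ hγ, smul_comm]

/-! ### good forms -/

/-- `f` has nebentypus `χ`, integral coefficients, and `f ≡ t h` modulo the prime `ker φ`. -/
def ThetaGood {M : ℕ} (χ : DirichletCharacter ℂ M) {κ : Type} [Field κ] (φ : Zbar →+* κ)
    (b : ℕ → Zbar) (f : CuspForm (Gamma1 M) 2) (t : κ) : Prop :=
  IsNeb χ f ∧ ∃ a : ℕ → Zbar, (∀ n, (a n : ℂ) = ModularFormClass.qCoeff f n) ∧
    ∀ n, φ (a n) = t * φ (b n)

section Good

variable {M : ℕ} {χ : DirichletCharacter ℂ M} {κ : Type} [Field κ] {φ : Zbar →+* κ}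
  {b : ℕ → Zbar}

theorem ThetaGood.add {f g : CuspForm (Gamma1 M) 2} {t s : κ} (hf : ThetaGood χ φ b f t)
    (hg : ThetaGood χ φ b g s) : ThetaGood χ φ b (f + g) (t + s) := by
  obtain ⟨hf1, a, ha, ha'⟩ := hf
  obtain ⟨hg1, a₂, ha₂, ha₂'⟩ := hg
  refine ⟨theta_isNeb_add hf1 hg1, fun n => a n + a₂ n, fun n => ?_, fun n => ?_⟩
  · rw [theta_qCoeff_add, ← ha, ← ha₂]
    push_cast
    rfl
  · rw [map_add, ha', ha₂', add_mul]

theorem ThetaGood.smul {f : CuspForm (Gamma1 M) 2} {t : κ} (hf : ThetaGood χ φ b f t)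
    (z : Zbar) : ThetaGood χ φ b ((z : ℂ) • f) (φ z * t) := by
  obtain ⟨hf1, a, ha, ha'⟩ := hf
  refine ⟨theta_isNeb_smul _ hf1, fun n => z * a n, fun n => ?_, fun n => ?_⟩
  · rw [theta_qCoeff_smul, ← ha]
    push_cast
    rfl
  · rw [map_mul, ha', mul_assoc]

theorem ThetaGood.zsmul {f : CuspForm (Gamma1 M) 2} {t : κ} (hf : ThetaGood χ φ b f t)
    (z : ℤ) : ThetaGood χ φ b (z • f) ((z : κ) * t) := by
  have h := hf.smul (z : Zbar)
  rw [map_intCast] at h
  have e : (((z : Zbar) : ℂ)) • f = z • f := by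
    have : (((z : Zbar) : ℂ)) = (z : ℂ) := by push_cast; rfl
    rw [this, Int.cast_smul_eq_zsmul]
  rwa [e] at h

end Good

theorem theta_good_act {M : ℕ} [NeZero M] {TH DH : OpFam M} (Hb : HBlock M TH DH)
    (χ : DirichletCharacter ℂ M) {κ : Type} [Field κ] (φ : Zbar →+* κ) (b : ℕ → Zbar)
    (x : ZMod M → Zbar) (c : ℕ → κ) (hx : ∀ u, (x u : ℂ) = χ u)
    (heig : ∀ p : ℕ, p.Prime → ¬ p ∣ M → ∀ n : ℕ,
      φ (b (p * n)) + φ (x (p : ZMod M)) * (p : κ) * (if p ∣ n then φ (b (n / p)) else 0)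
        = c p * φ (b n))
    (Q : FreeAlgebra ℤ (Idx M)) (f : CuspForm (Gamma1 M) 2) (t : κ)
    (hf : ThetaGood χ φ b f t) :
    ThetaGood χ φ b (act (gens Hb.TS Hb.DS) Q f)
      (FreeAlgebra.lift ℤ (gens (fun p _ _ => c p) (fun p _ _ => φ (x (p : ZMod M)))) Q * t) := by
  induction Q using FreeAlgebra.induction generalizing f t with
  | grade0 z =>
    rw [act_algebraMap, AlgHom.commutes, eq_intCast]
    exact hf.zsmul z
  | grade1 i =>
    rw [act_ι, FreeAlgebra.lift_ι_apply]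
    rcases i with p | p
    · rw [gens_inl, gens_inl]
      obtain ⟨hf1, a, ha, ha'⟩ := hf
      refine ⟨Hb.neb_T _ _ _ χ f hf1, fun n => a (p.1 * n) +
        x (p.1 : ZMod M) * (p.1 : Zbar) * (if p.1 ∣ n then a (n / p.1) else 0),
        fun n => ?_, fun n => ?_⟩
      · dsimp only
        rw [Hb.qCoeff_T _ _ _ χ f hf1, ← ha, ← hx]
        by_cases hpn : p.1 ∣ n
        · rw [if_pos hpn, if_pos hpn, ← ha]
          push_cast
          rfl
        · rw [if_neg hpn, if_neg hpn]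
          push_cast
          rfl
      · dsimp only
        have e : c p.1 * t * φ (b n) = t * (c p.1 * φ (b n)) := by ring
        rw [e, ← heig p.1 p.2.1 p.2.2 n, map_add, map_mul, map_mul, map_natCast, ha']
        by_cases hpn : p.1 ∣ n
        · rw [if_pos hpn, if_pos hpn, ha']
          ring
        · rw [if_neg hpn, if_neg hpn, map_zero]
          ring
    · rw [gens_inr, gens_inr, Hb.DS_eq _ _ _ χ f hf.1, ← hx]
      exact hf.smul _
  | mul P Q hP hQ =>
    rw [act_mul, map_mul, mul_assoc]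
    exact hP _ _ (hQ _ _ hf)
  | add P Q hP hQ =>
    rw [act_add, map_add, add_mul]
    exact (hP _ _ hf).add (hQ _ _ hf)

theorem theta_eq_zero {M : ℕ} [NeZero M] {TH DH : OpFam M} (Hb : HBlock M TH DH)
    (χ : DirichletCharacter ℂ M) (h : CuspForm (Gamma1 M) 2) (hneb : IsNeb χ h)
    {κ : Type} [Field κ] (φ : Zbar →+* κ) (b : ℕ → Zbar) (x : ZMod M → Zbar) (c : ℕ → κ)
    (hb : ∀ n, (b n : ℂ) = ModularFormClass.qCoeff h n) (hx : ∀ u, (x u : ℂ) = χ u)
    (h1 : φ (b 1) ≠ 0)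
    (heig : ∀ p : ℕ, p.Prime → ¬ p ∣ M → ∀ n : ℕ,
      φ (b (p * n)) + φ (x (p : ZMod M)) * (p : κ) * (if p ∣ n then φ (b (n / p)) else 0)
        = c p * φ (b n))
    (Q : FreeAlgebra ℤ (Idx M)) (hQ : act (gens Hb.TS Hb.DS) Q h = 0) :
    FreeAlgebra.lift ℤ (gens (fun p _ _ => c p) (fun p _ _ => φ (x (p : ZMod M)))) Q = 0 := by
  have h0 : ThetaGood χ φ b h 1 := ⟨hneb, b, hb, fun n => (one_mul _).symm⟩
  obtain ⟨-, a, ha, ha'⟩ := theta_good_act Hb χ φ b x c hx heig Q h 1 h0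
  have ha1 : a 1 = 0 := by
    apply Subtype.ext
    rw [ha 1, hQ, theta_qCoeff_zero]
    rfl
  have h2 := ha' 1
  rw [ha1, map_zero, mul_one] at h2
  exact (mul_eq_zero.1 h2.symm).resolve_right h1

end Fermat.Agent.S48.BB.Top

end
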