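/-
S48, block BB, sub-block TOP (helper89).  ASSEMBLY: `TopInput → ResidualWeightTwo5`.
-/
import Fermat.Agent.S48.BB.Top.Contract
import Fermat.Agent.S48.BB.Top.FreeAct
import Fermat.Agent.S48.BB.Top.Index
import Fermat.Agent.S48.BB.Top.Eigen
import Fermat.Agent.S48.BB.Top.Lattice
import Fermat.Agent.S48.BB.Top.OccInt
import Fermat.Agent.S48.BB.Top.OccC
import Fermat.Agent.S48.BB.Top.CharPoly
import Fermat.Agent.S48.BB.Top.Theta
import Fermat.Agent.S48.BB.Top.Comm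
import Fermat.Agent.S48.BB.Top.FinLevel
import Fermat.Agent.S48.BB.ResNode5

set_option autoImplicit false

noncomputable section

namespace Fermat.Agent.S48.BB.Top

open CongruenceSubgroup ModularGroup
open scoped MatrixGroups ModularForm

/-- **The abstract occurrence theorem.** -/
theorem occ {Γ : Type} [Group Γ] [Group.FG Γ] (X : Set Γ) {ι : Type} (ops : ι → NatOp Γ)
    (hmem : ∀ (i : ι) (ψ : Additive Γ →+ ℤ), ψ ∈ homK X ℤ → (ops i).op ℤ ψ ∈ homK X ℤ)
    (n : ℕ) (hn : 0 < n) (P : FreeAlgebra ℤ ι)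
    (hP : ∀ ψ ∈ homK X (ZMod n), act (fun i => (ops i).op (ZMod n)) P ψ = 0) :
    ∃ S : Polynomial ℤ, S.Monic ∧ (∀ i < S.natDegree, (n : ℤ) ∣ S.coeff i) ∧
      ∀ ψ ∈ homK X ℂ, act (fun i => (ops i).op ℂ) (Polynomial.aeval P S) ψ = 0 := by
  obtain ⟨S, hS, hd, h⟩ := occ_int X ops hmem n hn P hP
  exact ⟨S, hS, hd, act_complex_eq_zero X ops _ h⟩

theorem residualWeightTwo5_of_topInput (hin : TopInput) : ResidualWeightTwo5 := by
  intro M _ ℓ hℓ h5 hℓM χ h hneb κ _ _ _ φ b x c hb hx h1 heig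
  obtain ⟨TH, DH, ⟨pk⟩, ⟨Hb⟩⟩ := hin M ℓ hℓ h5 hℓM
  have hgood : ∀ p : ℕ, p.Prime → ¬ p ∣ M → ¬ p ∣ ℓ := by
    intro p hp hpM hpl
    exact hpM (((Nat.prime_dvd_prime_iff_eq hp hℓ).1 hpl) ▸ hℓM)
  have hfg : Group.FG ↥(H1 M 1) := Hb.fg
  have : NeZero ℓ := ⟨hℓ.ne_zero⟩
  -- the generators on `W`
  let gW : Idx M → pk.W →+ pk.W := gens pk.T pk.D
  let TW : Idx M → AddMonoid.End pk.W := fun i => gW i
  have hTW : ∀ i j, Commute (TW i) (TW j) := by
    intro i j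
    refine AddMonoidHom.ext fun w => ?_
    exact commute_gens pk Hb hgood i j w
  -- `W` is finite
  have hfinHom : Finite (Additive ↥(H1 M 1) →+ ZMod ℓ) := finite_hom_of_fg (ZMod ℓ)
  have hfinW : Finite pk.W := Finite.of_injective _ pk.mult_injective
  -- the module structure
  let _ : Module (MvPolynomial (Idx M) ℤ) pk.W := haModule TW hTW
  let ρ₀ : GQ →* AddMonoid.End pk.W :=
    { toFun := fun σ => pk.ρ σ
      map_one' := AddMonoidHom.ext fun w => pk.ρ_one w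
      map_mul' := fun σ τ => AddMonoidHom.ext fun w => pk.ρ_mul σ τ w }
  have hρT : ∀ σ i, Commute (ρ₀ σ) (TW i) := by
    intro σ i
    refine AddMonoidHom.ext fun w => ?_
    show pk.ρ σ (gW i w) = gW i (pk.ρ σ w)
    rcases i with p | p
    · exact (pk.T_ρ p.1 p.2.1 p.2.2 σ w).symm
    · exact (pk.D_ρ p.1 p.2.1 p.2.2 σ w).symm
  let ρ' : GQ →* Module.End (MvPolynomial (Idx M) ℤ) pk.W := haRep TW hTW ρ₀ hρT
  have hρ' : ∀ σ w, ρ' σ w = pk.ρ σ w := fun σ w => rfl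
  have hone : ∀ σ, (∀ w, pk.ρ σ w = w) → ρ' σ = 1 := by
    intro σ hσ
    refine LinearMap.ext fun w => ?_
    rw [hρ', hσ, Module.End.one_apply]
  -- the eigencharacter
  let cκ : Idx M → κ := gens (fun p _ _ => c p) (fun p _ _ => φ (x (p : ZMod M)))
  let θ : MvPolynomial (Idx M) ℤ →+* κ := (MvPolynomial.aeval cκ).toRingHom
  have hθ : ∀ P : MvPolynomial (Idx M) ℤ, (∀ w : pk.W, P • w = 0) → θ P = 0 := by
    intro P hP
    obtain ⟨P', rfl⟩ := toHA_surjective P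
    have hW0 : ∀ w, act gW P' w = 0 := by
      intro w
      rw [act_eq_haHom_toHA gW TW (fun _ _ => rfl) hTW]
      exact hP w
    let ops : Idx M → NatOp ↥(H1 M 1) := gens TH DH
    have hmult : ∀ i w, pk.mult (gW i w) = (ops i).op (ZMod ℓ) (pk.mult w) := by
      intro i w
      rcases i with p | p
      · exact pk.mult_T p.1 p.2.1 p.2.2 w
      · exact pk.mult_D p.1 p.2.1 p.2.2 w
    have hkill : ∀ ψ ∈ homK (peSet (H1 M 1)) (ZMod ℓ),
        act (fun i => (ops i).op (ZMod ℓ)) P' ψ = 0 := by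
      intro ψ hψ
      obtain ⟨w, rfl⟩ := pk.mult_surjective ψ hψ
      rw [← act_intertwine gW (fun i => (ops i).op (ZMod ℓ)) pk.mult hmult, hW0, map_zero]
    obtain ⟨S, hSm, hSd, hSC⟩ := occ (peSet (H1 M 1)) ops (by
      intro i ψ hψ
      rcases i with p | p
      · exact Hb.TH_mem p.1 p.2.1 p.2.2 ψ hψ
      · exact Hb.DH_mem p.1 p.2.1 p.2.2 ψ hψ) ℓ hℓ.pos P' hkill
    have hper : ∀ i f, Hb.per (gens Hb.TS Hb.DS i f) = (ops i).op ℂ (Hb.per f) := by
      intro i f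
      rcases i with p | p
      · exact Hb.per_T p.1 p.2.1 p.2.2 f
      · exact Hb.per_D p.1 p.2.1 p.2.2 f
    have hS0 : act (gens Hb.TS Hb.DS) (Polynomial.aeval P' S) h = 0 := by
      apply Hb.per_injective
      rw [act_intertwine (gens Hb.TS Hb.DS) (fun i => (ops i).op ℂ) Hb.per hper, map_zero]
      exact hSC _ (Hb.per_mem h)
    have hth := theta_eq_zero Hb χ h hneb φ b x c hb hx h1 heig _ hS0
    rw [← Polynomial.aeval_algHom_apply] at hth
    have h0 := eq_zero_of_aeval_eq_zero ℓ S hSm hSd _ hth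
    rw [lift_eq_aeval_toHA] at h0
    exact h0
  obtain ⟨W, i1, i2, i3, i4, r, hr1, hr2⟩ := exists_eigenmodule θ hθ ρ'
  refine ⟨W, i1, i2, i3, i4, r, ?_, ?_, ?_⟩
  · obtain ⟨L, hL, hLσ⟩ := exists_finiteLevel pk.ρ pk.openStab
    exact ⟨L, hL, fun σ hσ => hr1 σ (hone σ (hLσ σ hσ))⟩
  · intro p hp hpM σ hσ
    exact hr1 σ (hone σ (pk.unramified p hp hpM (hgood p hp hpM) σ hσ))
  · intro p hp hpM σ hσ
    have hrel := hr2 σ (MvPolynomial.X (Sum.inl ⟨p, hp, hpM⟩))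
      ((p : MvPolynomial (Idx M) ℤ) * MvPolynomial.X (Sum.inr ⟨p, hp, hpM⟩)) (by
        refine LinearMap.ext fun w => ?_
        have hES := pk.eichlerShimura p hp hpM (hgood p hp hpM) σ hσ w
        have e1 : (MvPolynomial.X (Sum.inl ⟨p, hp, hpM⟩) : MvPolynomial (Idx M) ℤ) • pk.ρ σ w
            = pk.T p hp hpM (pk.ρ σ w) := haModule_X_smul TW hTW _ _
        have e2 : ((p : MvPolynomial (Idx M) ℤ) * MvPolynomial.X (Sum.inr ⟨p, hp, hpM⟩)) • w
            = p • pk.D p hp hpM w := by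
          rw [mul_smul, haModule_X_smul TW hTW, Nat.cast_smul_eq_nsmul]
          rfl
        simp only [LinearMap.add_apply, LinearMap.sub_apply, Module.End.mul_apply,
          LinearMap.smul_apply, Module.End.one_apply, LinearMap.zero_apply, hρ']
        rw [e1, e2]
        exact hES)
    have t1 : θ (MvPolynomial.X (Sum.inl ⟨p, hp, hpM⟩)) = c p := MvPolynomial.aeval_X _ _
    have t2 : θ ((p : MvPolynomial (Idx M) ℤ) * MvPolynomial.X (Sum.inr ⟨p, hp, hpM⟩))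
        = φ (x (p : ZMod M)) * (p : κ) := by
      rw [map_mul, map_natCast, mul_comm]
      congr 1
      exact MvPolynomial.aeval_X _ _
    rw [t1, t2] at hrel
    exact hrel

end Fermat.Agent.S48.BB.Top

end
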