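/-
S48, block BB, sub-block TOP (architect helper89), task TOP-C: the operators `T_p`, `⟨p⟩` commute on
the Kummer group `W` (from Eichler-Shimura and the existence of Frobenius elements).
-/
import Fermat.Agent.S48.BB.Top.Contract
import Fermat.Agent.S48.BB.Top.Index
import Fermat.Agent.Lib.Frobenius

set_option autoImplicit false

namespace Fermat.Agent.S48.BB.Top

variable {M n : ℕ} {TH DH : OpFam M}

theorem Comm_exists_isFrob (p : ℕ) (hp : p.Prime) : ∃ σ : GQ, IsFrob σ p := by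
  obtain ⟨A, σ, hA, hσ⟩ := Fermat.Agent.Lib.Frobenius.exists_liesOverPrime_isFrobeniusAt p hp
  exact ⟨σ, A, hA, hσ⟩

/-- the diamond operators commute -/
theorem Comm_D_D (pk : KummerPackage1 M n TH DH) (Hb : HBlock M TH DH)
    (p : ℕ) (hp : p.Prime) (hpM : ¬ p ∣ M) (q : ℕ) (hq : q.Prime) (hqM : ¬ q ∣ M) (w : pk.W) :
    pk.D p hp hpM (pk.D q hq hqM w) = pk.D q hq hqM (pk.D p hp hpM w) := by
  apply pk.mult_injective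
  rw [pk.mult_D, pk.mult_D, pk.mult_D, pk.mult_D, Hb.DH_comm]

theorem Comm_ρ_ρ_inv (pk : KummerPackage1 M n TH DH) (σ : GQ) (v : pk.W) :
    pk.ρ σ (pk.ρ σ⁻¹ v) = v := by
  rw [← pk.ρ_mul, mul_inv_cancel, pk.ρ_one]

/-- `T_p = Frob + p ⟨p⟩ Frob⁻¹` -/
theorem Comm_T_eq (pk : KummerPackage1 M n TH DH) (p : ℕ) (hp : p.Prime) (hpM : ¬ p ∣ M)
    (hpn : ¬ p ∣ n) (σ : GQ) (hσ : IsFrob σ p) (v : pk.W) :
    pk.T p hp hpM v = pk.ρ σ v + p • pk.D p hp hpM (pk.ρ σ⁻¹ v) := by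
  have h := pk.eichlerShimura p hp hpM hpn σ hσ (pk.ρ σ⁻¹ v)
  rw [Comm_ρ_ρ_inv] at h
  rw [sub_add_eq_add_sub, sub_eq_zero] at h
  exact h.symm

theorem Comm_D_T (pk : KummerPackage1 M n TH DH) (Hb : HBlock M TH DH)
    (p : ℕ) (hp : p.Prime) (hpM : ¬ p ∣ M) (hpn : ¬ p ∣ n) (q : ℕ) (hq : q.Prime) (hqM : ¬ q ∣ M)
    (v : pk.W) :
    pk.D q hq hqM (pk.T p hp hpM v) = pk.T p hp hpM (pk.D q hq hqM v) := by
  obtain ⟨σ, hσ⟩ := Comm_exists_isFrob p hp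
  rw [Comm_T_eq pk p hp hpM hpn σ hσ, Comm_T_eq pk p hp hpM hpn σ hσ, map_add, map_nsmul,
    pk.D_ρ, Comm_D_D pk Hb q hq hqM p hp hpM, pk.D_ρ]

theorem Comm_T_T (pk : KummerPackage1 M n TH DH) (Hb : HBlock M TH DH)
    (p : ℕ) (hp : p.Prime) (hpM : ¬ p ∣ M) (hpn : ¬ p ∣ n) (q : ℕ) (hq : q.Prime) (hqM : ¬ q ∣ M)
    (hqn : ¬ q ∣ n) (v : pk.W) :
    pk.T q hq hqM (pk.T p hp hpM v) = pk.T p hp hpM (pk.T q hq hqM v) := by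
  obtain ⟨σ, hσ⟩ := Comm_exists_isFrob p hp
  rw [Comm_T_eq pk p hp hpM hpn σ hσ, Comm_T_eq pk p hp hpM hpn σ hσ, map_add, map_nsmul,
    pk.T_ρ, ← Comm_D_T pk Hb q hq hqM hqn p hp hpM, pk.T_ρ]

theorem commute_gens {M n : ℕ} {TH DH : OpFam M} (pk : KummerPackage1 M n TH DH)
    (Hb : HBlock M TH DH) (hn : ∀ p : ℕ, p.Prime → ¬ p ∣ M → ¬ p ∣ n) (i j : Idx M) (w : pk.W) :
    gens pk.T pk.D i (gens pk.T pk.D j w) = gens pk.T pk.D j (gens pk.T pk.D i w) := by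
  rcases i with p | p <;> rcases j with q | q
  · rw [gens_inl, gens_inl]
    exact Comm_T_T pk Hb q.1 q.2.1 q.2.2 (hn _ q.2.1 q.2.2) p.1 p.2.1 p.2.2 (hn _ p.2.1 p.2.2) w
  · rw [gens_inl, gens_inr]
    exact (Comm_D_T pk Hb p.1 p.2.1 p.2.2 (hn _ p.2.1 p.2.2) q.1 q.2.1 q.2.2 w).symm
  · rw [gens_inl, gens_inr]
    exact Comm_D_T pk Hb q.1 q.2.1 q.2.2 (hn _ q.2.1 q.2.2) p.1 p.2.1 p.2.2 w
  · rw [gens_inr, gens_inr]
    exact Comm_D_D pk Hb p.1 p.2.1 p.2.2 q.1 q.2.1 q.2.2 w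

end Fermat.Agent.S48.BB.Top
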